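import Mathlib
import Fermat.Prelude.Def_FLTPrelim_FreyPackage
import Fermat.Prelude.Def_FLTPrelim_Modularity

/-!
# Elementary facts on the integral Frey model

For a Frey package `P`, the integral model `P.freyCurveInt` maps to `P.freyCurve`, its
discriminant is nonzero, and it is a semistable model.
-/

set_option autoImplicit false

namespace Fermat.Agent.Frey

open FreyPackage

variable (P : FreyPackage)

lemma four_dvd_a_add_one : (4 : ℤ) ∣ P.a + 1 := by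
  have h : ((P.a + 1 : ℤ) : ZMod 4) = 0 := by
    push_cast
    rw [P.ha4]
    decide
  exact (ZMod.intCast_zmod_eq_zero_iff_dvd _ 4).1 h

lemma two_dvd_b : (2 : ℤ) ∣ P.b :=
  (ZMod.intCast_zmod_eq_zero_iff_dvd P.b 2).1 P.hb2

lemma four_dvd_a_pow_add_one : (4 : ℤ) ∣ P.a ^ P.p + 1 := by
  have h1 : (P.a - (-1)) ∣ P.a ^ P.p - (-1) ^ P.p := sub_dvd_pow_sub_pow _ _ _
  rw [P.hp_odd.neg_one_pow, sub_neg_eq_add, sub_neg_eq_add] at h1
  exact (four_dvd_a_add_one P).trans h1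

lemma thirtytwo_dvd_b_pow : (32 : ℤ) ∣ P.b ^ P.p := by
  have h1 : (2 : ℤ) ^ P.p ∣ P.b ^ P.p := pow_dvd_pow_of_dvd (two_dvd_b P) _
  have h2 : (2 : ℤ) ^ 5 ∣ (2 : ℤ) ^ P.p := pow_dvd_pow _ P.hp5
  exact (by norm_num : (32 : ℤ) = 2 ^ 5) ▸ h2.trans h1

lemma four_dvd_a₂ : (4 : ℤ) ∣ P.b ^ P.p - 1 - P.a ^ P.p := by
  have h1 := four_dvd_a_pow_add_one P
  have h2 := thirtytwo_dvd_b_pow P
  omega

lemma sixteen_dvd_a₄ : (16 : ℤ) ∣ -(P.a ^ P.p) * (P.b ^ P.p) :=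
  Dvd.dvd.mul_left ((by norm_num : (16 : ℤ) ∣ 32).trans (thirtytwo_dvd_b_pow P)) _

/-- The integral Frey model maps to the rational Frey curve. -/
theorem freyCurveInt_map : P.freyCurveInt.map (Int.castRingHom ℚ) = P.freyCurve := by
  ext
  · simp [freyCurveInt, freyCurve]
  · simp only [freyCurveInt, freyCurve, WeierstrassCurve.map_a₂, eq_intCast]
    rw [Int.cast_div (four_dvd_a₂ P) (by norm_num)]
    push_cast
    rfl
  · simp [freyCurveInt, freyCurve]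
  · simp only [freyCurveInt, freyCurve, WeierstrassCurve.map_a₄, eq_intCast]
    rw [Int.cast_div (sixteen_dvd_a₄ P) (by norm_num)]
    push_cast
    rfl
  · simp [freyCurveInt, freyCurve]

/-- `c₄` of the integral Frey model. -/
theorem freyCurveInt_c₄ :
    P.freyCurveInt.c₄ = (P.a ^ P.p) ^ 2 + P.a ^ P.p * P.b ^ P.p + (P.b ^ P.p) ^ 2 := by
  obtain ⟨m, hm⟩ := four_dvd_a₂ P
  obtain ⟨n, hn⟩ := sixteen_dvd_a₄ P
  have h2 : P.freyCurveInt.a₂ = m := by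
    simp only [freyCurveInt]
    rw [hm]; exact Int.mul_ediv_cancel_left _ (by norm_num)
  have h4 : P.freyCurveInt.a₄ = n := by
    simp only [freyCurveInt]
    rw [hn]; exact Int.mul_ediv_cancel_left _ (by norm_num)
  have h1 : P.freyCurveInt.a₁ = 1 := rfl
  have h3 : P.freyCurveInt.a₃ = 0 := rfl
  rw [WeierstrassCurve.c₄, WeierstrassCurve.b₂, WeierstrassCurve.b₄, h1, h2, h3, h4]
  have hm' : 4 * m = P.b ^ P.p - 1 - P.a ^ P.p := hm.symm
  have hn' : 16 * n = -(P.a ^ P.p) * (P.b ^ P.p) := hn.symm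
  rw [hm']
  linear_combination (-3) * hn'

/-- The discriminant of the integral Frey model (times `2 ^ 8`). -/
theorem freyCurveInt_Δ :
    2 ^ 8 * P.freyCurveInt.Δ = (P.a * P.b * P.c) ^ (2 * P.p) := by
  obtain ⟨m, hm⟩ := four_dvd_a₂ P
  obtain ⟨n, hn⟩ := sixteen_dvd_a₄ P
  have h2 : P.freyCurveInt.a₂ = m := by
    simp only [freyCurveInt]
    rw [hm]; exact Int.mul_ediv_cancel_left _ (by norm_num)
  have h4 : P.freyCurveInt.a₄ = n := by
    simp only [freyCurveInt]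
    rw [hn]; exact Int.mul_ediv_cancel_left _ (by norm_num)
  have h1 : P.freyCurveInt.a₁ = 1 := rfl
  have h3 : P.freyCurveInt.a₃ = 0 := rfl
  have h6 : P.freyCurveInt.a₆ = 0 := rfl
  rw [WeierstrassCurve.Δ, WeierstrassCurve.b₈, WeierstrassCurve.b₂, WeierstrassCurve.b₄,
    WeierstrassCurve.b₆, h1, h2, h3, h4, h6]
  have hm' : 4 * m = P.b ^ P.p - 1 - P.a ^ P.p := hm.symm
  have hn' : 16 * n = -(P.a ^ P.p) * (P.b ^ P.p) := hn.symm
  have hc : P.c ^ P.p = P.a ^ P.p + P.b ^ P.p := P.hFLT.symm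
  have e : (P.a * P.b * P.c) ^ (2 * P.p) =
      (P.a ^ P.p) ^ 2 * (P.b ^ P.p) ^ 2 * (P.c ^ P.p) ^ 2 := by
    rw [mul_comm 2 P.p, pow_mul, mul_pow, mul_pow, mul_pow, mul_pow]
  rw [e, hc, hm']
  generalize P.a ^ P.p = A at *
  generalize P.b ^ P.p = B at *
  have hAB : A * B = -(16 * n) := by rw [hn']; ring
  have e2 : A ^ 2 * B ^ 2 * (A + B) ^ 2 = (A * B) ^ 2 * ((B - A) ^ 2 + 4 * (A * B)) := by ring
  rw [e2, hAB]
  ring

theorem freyCurveInt_Δ_ne_zero : P.freyCurveInt.Δ ≠ 0 := by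
  intro h
  have h1 := freyCurveInt_Δ P
  rw [h, mul_zero] at h1
  exact pow_ne_zero _ P.habc0 h1.symm

/-- A prime dividing the discriminant of the integral Frey model divides `abc`. -/
theorem dvd_abc_of_dvd_Δ {q : ℕ} (hq : q.Prime) (h : (q : ℤ) ∣ P.freyCurveInt.Δ) :
    (q : ℤ) ∣ P.a * P.b * P.c := by
  have h1 : (q : ℤ) ∣ (P.a * P.b * P.c) ^ (2 * P.p) := by
    rw [← freyCurveInt_Δ P]; exact h.mul_left _
  exact (Nat.prime_iff_prime_int.1 hq).dvd_of_dvd_pow h1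

/-- The integral Frey model is semistable. -/
theorem freyCurveInt_isSemistableModel : P.freyCurveInt.IsSemistableModel := by
  intro q hq hΔ hc₄
  have hq' : Prime (q : ℤ) := Nat.prime_iff_prime_int.1 hq
  have habc := dvd_abc_of_dvd_Δ P hq hΔ
  rw [freyCurveInt_c₄] at hc₄
  have hab : ¬ ((q : ℤ) ∣ P.a ∧ (q : ℤ) ∣ P.b) := by
    rintro ⟨h1, h2⟩
    have := dvd_gcd h1 h2
    rw [P.hgcdab] at this
    exact hq'.not_dvd_one this
  have hA : (q : ℤ) ∣ P.a ^ P.p → (q : ℤ) ∣ P.a := fun h => hq'.dvd_of_dvd_pow h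
  have hB : (q : ℤ) ∣ P.b ^ P.p → (q : ℤ) ∣ P.b := fun h => hq'.dvd_of_dvd_pow h
  have hp0 : P.p ≠ 0 := P.hp0
  rcases hq'.dvd_or_dvd habc with h | h
  · rcases hq'.dvd_or_dvd h with h | h
    · -- q ∣ a
      have h1 : (q : ℤ) ∣ P.a ^ P.p := dvd_pow h hp0
      have h2 : (q : ℤ) ∣ (P.b ^ P.p) ^ 2 := by
        have e : (P.b ^ P.p) ^ 2 = ((P.a ^ P.p) ^ 2 + P.a ^ P.p * P.b ^ P.p + (P.b ^ P.p) ^ 2)
          - P.a ^ P.p * (P.a ^ P.p + P.b ^ P.p) := by ring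
        rw [e]
        exact dvd_sub hc₄ (h1.mul_right _)
      exact hab ⟨h, hB (hq'.dvd_of_dvd_pow h2)⟩
    · -- q ∣ b
      have h1 : (q : ℤ) ∣ P.b ^ P.p := dvd_pow h hp0
      have h2 : (q : ℤ) ∣ (P.a ^ P.p) ^ 2 := by
        have e : (P.a ^ P.p) ^ 2 = ((P.a ^ P.p) ^ 2 + P.a ^ P.p * P.b ^ P.p + (P.b ^ P.p) ^ 2)
          - P.b ^ P.p * (P.a ^ P.p + P.b ^ P.p) := by ring
        rw [e]
        exact dvd_sub hc₄ (h1.mul_right _)
      exact hab ⟨hA (hq'.dvd_of_dvd_pow h2), h⟩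
  · -- q ∣ c
    have h1 : (q : ℤ) ∣ P.a ^ P.p + P.b ^ P.p := by
      rw [P.hFLT]; exact dvd_pow h hp0
    have h2 : (q : ℤ) ∣ P.a ^ P.p * P.b ^ P.p := by
      have e : P.a ^ P.p * P.b ^ P.p = (P.a ^ P.p + P.b ^ P.p) * (P.a ^ P.p + P.b ^ P.p)
        - ((P.a ^ P.p) ^ 2 + P.a ^ P.p * P.b ^ P.p + (P.b ^ P.p) ^ 2) := by ring
      rw [e]
      exact dvd_sub (h1.mul_right _) hc₄
    rcases hq'.dvd_or_dvd h2 with h3 | h3
    · have h4 : (q : ℤ) ∣ P.b ^ P.p := (dvd_add_right h3).1 h1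
      exact hab ⟨hA h3, hB h4⟩
    · have h4 : (q : ℤ) ∣ P.a ^ P.p := (dvd_add_left h3).1 h1
      exact hab ⟨hA h4, hB h3⟩

/-- The integral Frey model is an integral model of the Frey curve. -/
theorem freyCurveInt_isIntegralModelOf : P.freyCurveInt.IsIntegralModelOf P.freyCurve :=
  ⟨1, by rw [one_smul, freyCurveInt_map]⟩

/-- S60 (as a hypothesis) implies S04: modularity of every semistable integral Weierstrass curve
implies modularity of the Frey curve. -/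
theorem freyCurve_isModular_of_semistable
    (h60 : ∀ W : WeierstrassCurve ℤ, W.Δ ≠ 0 → W.IsSemistableModel →
      (W.map (Int.castRingHom ℚ)).IsModular) : P.freyCurve.IsModular := by
  have h := h60 P.freyCurveInt (freyCurveInt_Δ_ne_zero P) (freyCurveInt_isSemistableModel P)
  rwa [freyCurveInt_map] at h

end Fermat.Agent.Frey
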